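import Fermat.Agent.TwoAdic.Base.ActionHom
import Fermat.Agent.TwoAdic.TSide.PairProducer
import Fermat.Agent.TwoAdic.Route.BaseSetup
import Fermat.Agent.TwoAdic.Descend.Loop

/-!
# The modules of the descent at a base setup

At every stage of the descent of a base setup the ring of pairs acts on the new quotient, with the
traces at Frobenius elements outside `S₀` and the root at `2` given by the operators.
-/

set_option autoImplicit false

noncomputable section

open IsLocalRing GaloisRep Fermat.Agent.DefRing Fermat.Agent.Deform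

namespace Fermat.Agent.TwoAdic.Base

open HeckeModule EigenSystems Engine.TRep HeckeJ0 LevelRaising Pair TSide Descend

attribute [local instance] ALSetup.isPrime

variable [Fact (Nat.Prime 2)] {O : Type} [CommRing O] [IsDomain O] [IsDiscreteValuationRing O]
  [IsAdicComplete (maximalIdeal O) O] [Finite (ResidueField O)] [CharP (ResidueField O) 2]
  [CharZero O] {D : NormalData O} {E : LiftData} {C : Set (GQ × GQ)}

omit [Fact (Nat.Prime 2)] [IsAdicComplete (maximalIdeal O) O] [Finite (ResidueField O)] [CharZero O]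
  in
/-- A base setup gives the hypotheses on the operators away from `S₀ ∖ {2}` at every stage. -/
theorem subHyp_of_base {Sm Rc X : Finset ℕ} (hdih : IsDihedralResidual E.D D.rbar)
    (hcont : IsCont D.rbar) (hmod : TopDown.IsResiduallyModular E.D D.rbar Sm)
    (hR : TopDown.CorePrimes E D.rbar Rc X) (T : ALSetup O) (hcore : T.core = E.ℓ₀ * prodOf Rc)
    (hχ : T.χ = 1) (hV : E.D.primeFactors.erase E.ℓ₀ ∪ E.aux ⊆ T.W) {t : ℕ → O}
    (hm : ∀ (l : AwayIndex T.S) (o : O), MvPolynomial.X l - MvPolynomial.C o ∈ T.m ↔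
      TopDown.baseEigen D.rbar Rc t ((l : Nat.Primes) : ℕ) = residue O o)
    (S₀ : Finset ℕ) (hS₀ : Sm ∪ Rc ∪ {2} ⊆ S₀) (hTS : T.S ⊆ ↑(S₀.erase 2))
    (hlev : (T.level T.W).primeFactors ⊆ S₀) (S : Stage E) :
    SubHyp T (S₀.erase 2) (oneChars O) ∅ (E.D.primeFactors.erase E.ℓ₀ ∪ S.1) := by
  classical
  have hVS : E.D.primeFactors.erase E.ℓ₀ ∪ S.1 ⊆ T.W :=
    (Finset.union_subset_union_right S.2).trans hV
  refine
    { subset := hVS
      S_sub := hTS
      mem_S := fun ℓ hℓ hd => ?_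
      aux := fun q hq => absurd hq (Finset.notMem_empty q)
      char_eq := MonoidHom.ext fun u => by
        rw [charSq_apply, Finset.prod_empty]
        show T.χ _ = 1
        rw [hχ, MonoidHom.one_apply]
      eisenstein := ?_ }
  · have hsh : LevelShape S.data ∅ Rc (E.D.primeFactors.erase E.ℓ₀ ∪ S.1) :=
      levelShape_of_corePrimes (E := S.data) (E' := E) hR rfl S.2
        fun x hx => absurd hx (Finset.notMem_empty x)
    have hm' := hsh.mem_of_dvd (T := T) (by rw [prodOf_empty, one_mul]; exact hcore) hℓ hd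
    have := shapePrimes_subset (E := S.data) (Qs := ∅) hR T hcore hVS S₀ hlev hm'
    simpa using this
  · have : NeZero (T.level T.W * ∏ q ∈ (∅ : Finset ℕ), q) :=
      ⟨by rw [Finset.prod_empty, mul_one]; exact T.level_ne_zero subset_rfl⟩
    obtain ⟨r, hr, hrX, hr1, hrtr⟩ := exists_orderThree_one_mod hdih hcont
      (by have := E.mod_eight; omega) (T.level T.W * ∏ q ∈ (∅ : Finset ℕ), q) S₀
    have hrS : r ∉ (↑(S₀.erase 2) : Set ℕ) := fun h =>
      hrX (Finset.mem_of_mem_erase (Finset.mem_coe.mp h))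
    have hr2 : r ≠ 2 := fun h => hrX (hS₀ (by simp [h]))
    refine ⟨r, hr, hrS, hr1, fun hmem => ?_⟩
    obtain ⟨A, f, hA, hf⟩ := Frobenius.exists_liesOverPrime_and_isFrobeniusAt_qbar hr
    have h1 := sub_mem (TopDown.base_mem hmod hm S₀ hS₀ ⟨⟨r, hr⟩, fun h => hrS (hTS h)⟩ hrX A hA
      f hf 1 (by rw [map_one]; exact (hrtr A hA f hf).symm)) hmem
    have hrm : MvPolynomial.C (r : O) ∈ T.m := by
      rw [awayX] at h1
      simpa using h1
    have hru : IsUnit (r : O) := by
      rw [← notMem_maximalIdeal]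
      intro hru
      obtain ⟨j, hj⟩ := hr.odd_of_ne_two hr2
      refine (maximalIdeal.isMaximal O).ne_top ((Ideal.eq_top_iff_one _).mpr ?_)
      have := sub_mem hru (Ideal.mul_mem_right (j : O) _ T.two)
      rwa [hj, Nat.cast_add, Nat.cast_mul, Nat.cast_one, Nat.cast_ofNat,
        add_sub_cancel_left] at this
    exact T.isPrime.ne_top (Ideal.eq_top_of_isUnit_mem _ hrm (hru.map MvPolynomial.C))

/-- **The modules of the descent.** -/
theorem exists_baseModules (hspan : Submodule.span (ResidueField O) (Set.range D.rbar) = ⊤)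
    {Sm Rc X : Finset ℕ} (hdih : IsDihedralResidual E.D D.rbar) (hcont : IsCont D.rbar)
    (hC : ∀ x ∈ C, ∃ K : Pair.KummerPair, x = (K.s, K.t))
    (hmod : TopDown.IsResiduallyModular E.D D.rbar Sm) (hR : TopDown.CorePrimes E D.rbar Rc X)
    (T : ALSetup O) (hcore : T.core = E.ℓ₀ * prodOf Rc) (hM : T.M = 1) (hχ : T.χ = 1)
    (hc : ∀ e, T.c e = -(E.sgn e : O)) (hV : E.D.primeFactors.erase E.ℓ₀ ∪ E.aux ⊆ T.W)
    {t : ℕ → O}
    (hm : ∀ (l : AwayIndex T.S) (o : O), MvPolynomial.X l - MvPolynomial.C o ∈ T.m ↔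
      TopDown.baseEigen D.rbar Rc t ((l : Nat.Primes) : ℕ) = residue O o)
    (hcube : T.CubeInjective hV (E.D.primeFactors.erase E.ℓ₀ ∪ E.aux))
    (S₀ : Finset ℕ) (hS₀ : Sm ∪ Rc ∪ {2} ⊆ S₀) (hTS : T.S ⊆ ↑S₀) (h2S : 2 ∉ T.S)
    (hlev : (T.level T.W).primeFactors ⊆ S₀) (h : ∀ S : Stage E, IsResidualPair D S.data ∅ C)
    (U : ∀ S : Stage E, (pairFunctor (h S)).UniversalPoint) :
    ∃ (_ : ∀ S : Stage E, Module (U S).R
        (T.NewQuot O (stage_subset E T _ hV S) (E.D.primeFactors.erase E.ℓ₀ ∪ S.1))),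
      (∀ S : Stage E, IsScalarTower O (U S).R
        (T.NewQuot O (stage_subset E T _ hV S) (E.D.primeFactors.erase E.ℓ₀ ∪ S.1))) ∧
      (∀ (S : Stage E) (ℓ : ℕ) (hℓ : ℓ.Prime) (hℓS : ℓ ∉ T.S), ℓ ∉ S₀ →
        ∀ P' : ValuationSubring (AlgebraicClosure ℚ), P'.LiesOverPrime ℓ →
          ∀ σ : GQ, P'.IsFrobeniusAt σ ℓ →
          ∀ y : T.NewQuot O (stage_subset E T _ hV S) (E.D.primeFactors.erase E.ℓ₀ ∪ S.1),
            Matrix.trace (uRep (U S) σ) • y =
              T.newAct O (stage_subset E T _ hV S) (E.D.primeFactors.erase E.ℓ₀ ∪ S.1)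
                (awayX O hℓ hℓS) y) ∧
      ∀ (S : Stage E) (y : T.NewQuot O (stage_subset E T _ hV S)
          (E.D.primeFactors.erase E.ℓ₀ ∪ S.1)),
        T.newAct O (stage_subset E T _ hV S) (E.D.primeFactors.erase E.ℓ₀ ∪ S.1)
            (awayX O Nat.prime_two h2S) (uRoot (U S) • y) =
          uRoot (U S) • uRoot (U S) • y + (2 : O) • y := by
  classical
  have h2R : 2 ∉ Rc := fun h2 => by
    have := hR.mod_four 2 h2
    omega
  have hTS' : T.S ⊆ (↑(S₀.erase 2) : Set ℕ) := fun x hx =>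
    Finset.mem_coe.mpr (Finset.mem_erase.mpr ⟨fun e => h2S (e ▸ hx), Finset.mem_coe.mp (hTS hx)⟩)
  have hact : ∀ S : Stage E, ∃ act : (U S).R →ₐ[O]
      Module.End O (T.NewQuot O (stage_subset E T _ hV S) (E.D.primeFactors.erase E.ℓ₀ ∪ S.1)),
      (∀ (l : ℕ) (hl : l.Prime) (hlT : l ∉ T.S), l ∉ (↑(S₀.erase 2) : Set ℕ) → l ≠ 2 →
        ∀ A : ValuationSubring (AlgebraicClosure ℚ), A.LiesOverPrime l → ∀ σ : GQ,
          A.IsFrobeniusAt σ l → ∀ y, act (Matrix.trace (uRep (U S) σ)) y =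
            T.newAct O (stage_subset E T _ hV S) (E.D.primeFactors.erase E.ℓ₀ ∪ S.1)
              (awayX O hl hlT) y) ∧
      ∀ (h2 : 2 ∉ T.S) (y),
        act (uRoot (U S)) (act (uRoot (U S)) y) + (2 : O) • y =
          T.newAct O (stage_subset E T _ hV S) (E.D.primeFactors.erase E.ℓ₀ ∪ S.1)
            (awayX O Nat.prime_two h2) (act (uRoot (U S)) y) := by
    intro S
    have H := subHyp_of_base hdih hcont hmod hR T hcore hχ hV hm S₀ hS₀ hTS' hlev S
    have P : PairHyp D S.data C T (oneChars O) (S₀.erase 2) ∅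
        (E.D.primeFactors.erase E.ℓ₀ ∪ S.1) (E.D.primeFactors.erase E.ℓ₀ ∪ S.1) :=
      pairHyp_of_base (E := S.data) (E' := E) hdih hcont hC hR rfl S.2 (fun e _ => rfl) T hcore hM
        hc Finset.subset_union_right (Finset.notMem_erase 2 S₀)
    obtain ⟨hfin, hfree⟩ := T.free_newQuot (stage_subset E T _ hV S)
      (B := E.D.primeFactors.erase E.ℓ₀ ∪ S.1) subset_rfl
      (hcube.mono (Finset.union_subset_union_right S.2))
    have := hfin
    have := hfree
    refine exists_baseAction hspan T H P h2S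
      (TopDown.base_two_mem hm h2R ⟨⟨2, Nat.prime_two⟩, h2S⟩ rfl 1 (map_one _))
      (fun l hl hlS hl2 A hA σ hσ o ho => TopDown.base_mem hmod hm S₀ hS₀
        ⟨⟨l, hl⟩, fun h' => hlS (hTS' h')⟩
        (fun h' => hlS (Finset.mem_coe.mpr (Finset.mem_erase.mpr ⟨hl2, h'⟩))) A hA σ hσ o ho)
      (fun o ho y hy => (smul_eq_zero.mp hy).resolve_left ho) (U S)
  choose act hτ hα using hact
  refine ⟨fun S => Module.compHom _ (act S).toRingHom, fun S => ?_,
    fun S ℓ hℓ hℓS hℓ0 P' hP' σ hσ y => ?_, fun S y => (hα S h2S y).symm⟩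
  · let := Module.compHom (T.NewQuot O (stage_subset E T _ hV S)
      (E.D.primeFactors.erase E.ℓ₀ ∪ S.1)) (act S).toRingHom
    exact ⟨fun o r y => by
      show act S (o • r) y = o • act S r y
      rw [map_smul, LinearMap.smul_apply]⟩
  · exact hτ S ℓ hℓ hℓS (fun h' => hℓ0 (Finset.mem_of_mem_erase (Finset.mem_coe.mp h')))
      (fun e => hℓ0 (hS₀ (by simp [e]))) P' hP' σ hσ y

end Fermat.Agent.TwoAdic.Base

end
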