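import Fermat.Agent.TwoAdic.Base.SignedIso
import Fermat.Agent.TwoAdic.Scalar.FinalSetup

/-!
The ring of pairs at the base stage in the shape of the criterion at the squares: `φ`, complete
intersection, basis and root for the module of the trivial representation.
-/

set_option autoImplicit false

noncomputable section

open IsLocalRing GaloisRep Fermat.Agent.DefRing Fermat.Agent.Deform

namespace Fermat.Agent.TwoAdic.Base

open Pair HeckeJ0 LevelRaising HeckeModule
open C0 (HeckeImage)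

attribute [local instance] ALSetup.isPrime Module.quotientAnnihilator

variable {O : Type} [CommRing O] [IsDomain O] [IsDiscreteValuationRing O] [CharZero O]
  [IsAdicComplete (maximalIdeal O) O] [Finite (ResidueField O)] [CharP (ResidueField O) 2]
  {D : NormalData O} {E : LiftData} {Q : Finset ℕ} {C : Set (GQ × GQ)}
  {h : IsResidualPair D E Q C} (T : ALSetup O) {V B : Finset ℕ} (hV : V ⊆ T.W)

/-- The inputs `φ`, `hT`, `b`, `αT`, `hαT` of `bijective_of_squares`, for every unit root `α`. -/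
theorem exists_iso_baseSigned [Fact (Nat.Prime 2)] (hχ : T.χ = 1) (hlow : T.LowerVanish V)
    (hSfin : T.S.Finite) (U : (pairFunctor h).UniversalPoint)
    (hspan : Submodule.span (ResidueField O) (Set.range D.rbar) = ⊤)
    [Module U.R (T.NewQuot O hV B)] [IsScalarTower O U.R (T.NewQuot O hV B)]
    (S₀ : Finset ℕ) (h2 : 2 ∉ T.S)
    (hτ : ∀ (ℓ : ℕ) (hℓ : ℓ.Prime) (hℓS : ℓ ∉ T.S), ℓ ∉ S₀ →
      ∀ P : ValuationSubring (AlgebraicClosure ℚ), P.LiesOverPrime ℓ →
        ∀ σ : GQ, P.IsFrobeniusAt σ ℓ → ∀ m : T.NewQuot O hV B,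
          Matrix.trace (uRep U σ) • m = T.newAct O hV B (awayX O hℓ hℓS) m)
    (hα : ∀ m : T.NewQuot O hV B,
      T.newAct O hV B (awayX O Nat.prime_two h2) (uRoot U • m)
        = uRoot U • uRoot U • m + (2 : O) • m)
    (hci : IsFiniteCI O U.R) (β : Module.Basis (Fin 2) U.R (T.NewQuot O hV B))
    (α : Module.End (HeckePoly O) (CohLoc (awayMonoid T.m) (oneRep O O (T.level V))))
    (hαb : Function.Bijective α)
    (hαroot : ∀ x, α (α x) =
      (MvPolynomial.X (@sqPrime 2 ⟨Nat.prime_two⟩) : HeckePoly O) • α x - ((2 : ℕ) : O) • x) :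
    ∃ φ : U.R →ₐ[O] HeckeImage O (baseSigned hV hχ hlow),
      Function.Bijective φ ∧ IsFiniteCI O (HeckeImage O (baseSigned hV hχ hlow)) ∧
      IsLocalRing (HeckeImage O (baseSigned hV hχ hlow)) ∧
      Nonempty (Module.Basis (Fin 2) (HeckeImage O (baseSigned hV hχ hlow))
        (baseSigned hV hχ hlow)) ∧
      IsUnit (φ (uRoot U)) ∧
      (∀ x : baseSigned hV hχ hlow, ((φ (uRoot U) • x : baseSigned hV hχ hlow) :
        CohLoc (awayMonoid T.m) (oneRep O O (T.level V))) = α x) ∧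
      ∀ (ℓ : ℕ) (hℓ : ℓ.Prime), ℓ ∉ T.S → ℓ ∉ S₀ →
        ∀ P : ValuationSubring (AlgebraicClosure ℚ), P.LiesOverPrime ℓ →
          ∀ σ : GQ, P.IsFrobeniusAt σ ℓ →
            φ (Matrix.trace (uRep U σ))
              = Ideal.Quotient.mk _ (MvPolynomial.X (⟨ℓ, hℓ⟩ : Nat.Primes)) := by
  obtain ⟨φ, hφ, hfci, hloc, ⟨b⟩, hu, hroot, -, htr⟩ :=
    exists_ringEquiv_heckeImage T hV hχ hlow hSfin U hspan S₀ h2 hτ hα hci β
  let ι := baseImageEquiv hV hχ hlow
  have hu' : IsUnit (ι (φ (uRoot U))) := hu.map ι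
  obtain ⟨_, -⟩ := free_base hV hχ
  refine ⟨ι.toAlgHom.comp φ, ι.bijective.comp hφ, ?_,
    RingEquiv.isLocalRing ι.toRingEquiv, ⟨baseBasis hV hχ hlow b⟩, hu', fun x => ?_,
    fun ℓ hℓ hℓS hℓ0 P hP σ hσ => ?_⟩
  · obtain ⟨hfin, hfree, n, F, ψ, hψ, hker⟩ := hfci
    exact ⟨Module.Finite.equiv ι.toLinearEquiv, Module.Free.of_equiv ι.toLinearEquiv, n, F,
      ι.toAlgHom.comp ψ, ι.surjective.comp hψ, by
        rw [← hker]
        exact RingHom.ker_comp_of_injective
          (ψ : MvPowerSeries (Fin n) O →+* HeckeImage O (ALSetup.signedHecke hV hχ hlow))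
          (f := (ι : _ →+* HeckeImage O (baseSigned hV hχ hlow))) ι.injective⟩
  · refine coe_heckeImage_root_smul (q := ((2 : ℕ) : O)) (by exact_mod_cast T.two) α hαb hαroot
      (a := ι (φ (uRoot U))) hu' ?_ x
    have h1 := congrArg ι hroot
    rw [map_add, map_mul, map_ofNat] at h1
    refine eq_sub_of_add_eq ?_
    rw [Nat.cast_ofNat, map_ofNat]
    exact h1.trans (map_mul ι _ _)
  · show ι (φ (Matrix.trace (uRep U σ))) = _
    rw [htr ℓ hℓ hℓS hℓ0 P hP σ hσ]
    exact baseImageEquiv_mk hV hχ hlow _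

end Fermat.Agent.TwoAdic.Base
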