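import Fermat.Agent.TwoAdic.TSide.PointPair
import Fermat.Agent.TwoAdic.TSide.SubRing
import Fermat.Agent.TwoAdic.TSide.Surjection

/-!
# The ring of pairs acts on the new quotient of a base setup

With no tuple and trivial characters, the points of the operators away from the primes of the level
give pairs, so the universal ring of pairs acts on the new quotient with the Frobenius traces and
the root at `2` given by the operators.
-/

set_option autoImplicit false
-- the linter alone takes seconds on the proof terms of this file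
set_option linter.unusedSectionVars false

noncomputable section

open IsLocalRing GaloisRep Fermat.Agent.DefRing Fermat.Agent.Deform

namespace Fermat.Agent.TwoAdic.Base

open HeckeModule EigenSystems Engine.TRep HeckeJ0 LevelRaising Pair TSide

attribute [local instance] ALSetup.isPrime

variable [Fact (Nat.Prime 2)] {O : Type} [CommRing O] [IsDomain O] [IsDiscreteValuationRing O]
  [IsAdicComplete (maximalIdeal O) O] [Finite (ResidueField O)] [CharP (ResidueField O) 2]
  [CharZero O] {D : NormalData O} {E : LiftData} {C : Set (GQ × GQ)}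

/-- The trivial characters. -/
abbrev oneChars (O : Type) [CommRing O] : ∀ q : ℕ, (ZMod q)ˣ →* O := fun _ => 1

/-- **The action of the ring of pairs.** -/
theorem exists_baseAction (hspan : Submodule.span (ResidueField O) (Set.range D.rbar) = ⊤)
    (T : ALSetup O) {S V B : Finset ℕ} (H : SubHyp T S (oneChars O) ∅ V)
    (P : PairHyp D E C T (oneChars O) S ∅ V B) (h2T : 2 ∉ T.S)
    (hm2 : awayX O Nat.prime_two h2T - MvPolynomial.C 1 ∈ T.m)
    (hmres : ∀ (l : ℕ) (hl : l.Prime) (hlS : l ∉ (↑S : Set ℕ)), l ≠ 2 →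
      ∀ A : ValuationSubring (AlgebraicClosure ℚ), A.LiesOverPrime l → ∀ σ : GQ,
        A.IsFrobeniusAt σ l → ∀ o : O, residue O o = Matrix.trace (D.rbar σ) →
          awayX O hl (fun h => hlS (H.S_sub h)) - MvPolynomial.C o ∈ T.m)
    [Module.Finite O (T.NewQuot O H.subset B)]
    (htf : ∀ o : O, o ≠ 0 → ∀ y : T.NewQuot O H.subset B, o • y = 0 → y = 0)
    {h : IsResidualPair D E ∅ C} (U : (pairFunctor h).UniversalPoint) :
    ∃ act : U.R →ₐ[O] Module.End O (T.NewQuot O H.subset B),
      (∀ (l : ℕ) (hl : l.Prime) (hlT : l ∉ T.S), l ∉ (↑S : Set ℕ) → l ≠ 2 →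
        ∀ A : ValuationSubring (AlgebraicClosure ℚ), A.LiesOverPrime l → ∀ σ : GQ,
          A.IsFrobeniusAt σ l → ∀ y,
            act (Matrix.trace (uRep U σ)) y = T.newAct O H.subset B (awayX O hl hlT) y) ∧
      ∀ (h2 : 2 ∉ T.S) (y),
        act (uRoot U) (act (uRoot U) y) + (2 : O) • y =
          T.newAct O H.subset B (awayX O Nat.prime_two h2) (act (uRoot U) y) := by
  classical
  by_cases hnt : Nontrivial (T.NewQuot O H.subset B)
  swap
  · have := not_nontrivial_iff_subsingleton.mp hnt
    have : Subsingleton (Module.End O (T.NewQuot O H.subset B)) :=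
      ⟨fun f g => LinearMap.ext fun x => Subsingleton.elim _ _⟩
    exact ⟨{ toFun := fun _ => 0
             map_one' := Subsingleton.elim _ _
             map_mul' := fun _ _ => Subsingleton.elim _ _
             map_zero' := rfl
             map_add' := fun _ _ => Subsingleton.elim _ _
             commutes' := fun _ => Subsingleton.elim _ _ },
      fun _ _ _ _ _ _ _ _ _ _ => Subsingleton.elim _ _, fun _ _ => Subsingleton.elim _ _⟩
  have h2S : (2 : ℕ) ∉ (↑S : Set ℕ) := fun h2 => P.two_notMem (Finset.mem_coe.mp h2)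
  have h2O : (2 : O) ∈ maximalIdeal O := T.two
  let A := SubRing T H.S_sub H.subset B
  let act := subRingAct T H.S_sub H.subset B
  obtain ⟨hloc, hunit⟩ := isLocalRing_subRing T H.S_sub H.subset (B := B)
  have : IsLocalRing A := hloc
  have : Module.Finite O A := by
    obtain ⟨k, f, hf⟩ := Module.Finite.exists_fin' O (T.NewQuot O H.subset B)
    exact Module.Finite.of_injective ((LinearMap.lcomp O _ f).comp act.toLinearMap)
      ((show Function.Injective (LinearMap.lcomp O (T.NewQuot O H.subset B) f) from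
        fun g g' hgg => LinearMap.ext fun x => by
          obtain ⟨y, rfl⟩ := hf x
          exact LinearMap.congr_fun hgg y).comp (subRingAct_injective T H.S_sub H.subset B))
  have : IsNoetherianRing A := IsNoetherianRing.of_finite O A
  have : IsLocalHom (algebraMap O A) := ⟨fun c hu => by
    by_contra hc'
    refine (hunit (algebraMap O _ c)).mp ?_ ?_
    · rwa [Ideal.Quotient.mk_algebraMap]
    · rw [AlgHom.commutes]
      exact T.le (Ideal.mem_map_of_mem _ hc')⟩
  have : IsAdicComplete (maximalIdeal A) A := IsLocalRing.isAdicComplete_of_module_finite (𝒪 := O)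
  let X : ∀ (l : ℕ) (hl : l.Prime), l ∉ (↑S : Set ℕ) → A := fun l hl hlS =>
    Ideal.Quotient.mk _ (awayX O hl hlS)
  have hXact : ∀ l hl hlS (hlT : l ∉ T.S),
      act (X l hl hlS) = T.newAct O H.subset B (awayX O hl hlT) := fun l hl hlS hlT => by
    show T.newAct O H.subset B (restrictAway O H.S_sub (awayX O hl hlS)) = _
    rw [H.awayX_big]
  -- the residual values
  have hres : ∀ (l : ℕ) (hl : l.Prime) (hlS : l ∉ (↑S : Set ℕ)),
      ∃ t : O, X l hl hlS - algebraMap O A t ∈ maximalIdeal A ∧ (l = 2 → residue O t = 1) ∧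
        (l ≠ 2 → ∀ P : ValuationSubring (AlgebraicClosure ℚ), P.LiesOverPrime l → ∀ σ : GQ,
          P.IsFrobeniusAt σ l → residue O t = Matrix.trace (D.rbar σ)) := by
    intro l hl hlS
    have key : ∀ t : O, awayX O hl (fun h' => hlS (H.S_sub h')) - MvPolynomial.C t ∈ T.m →
        X l hl hlS - algebraMap O A t ∈ maximalIdeal A := fun t ht hu => by
      rw [← Ideal.Quotient.mk_algebraMap, ← map_sub, hunit, map_sub, H.awayX_big,
        AlgHom.commutes] at hu
      exact hu ht
    by_cases hl2 : l = 2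
    · subst hl2
      exact ⟨1, key 1 hm2, fun _ => map_one _, fun h' => absurd rfl h'⟩
    · obtain ⟨A₀, σ₀, hA₀, hσ₀⟩ := Frobenius.exists_liesOverPrime_and_isFrobeniusAt_qbar hl
      obtain ⟨t, ht⟩ := IsLocalRing.residue_surjective (Matrix.trace (D.rbar σ₀))
      have hm := hmres l hl hlS hl2 A₀ hA₀ σ₀ hσ₀ t ht
      refine ⟨t, key t hm, fun h' => absurd h' hl2, fun _ P hP σ hσ => ?_⟩
      obtain ⟨t', ht'⟩ := IsLocalRing.residue_surjective (Matrix.trace (D.rbar σ))
      have hm' := hmres l hl hlS hl2 P hP σ hσ t' ht'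
      rw [← ht', ← sub_eq_zero, ← map_sub, residue_eq_zero_iff]
      intro hu
      refine T.isPrime.ne_top (Ideal.eq_top_of_isUnit_mem _ ?_ (hu.map MvPolynomial.C))
      have h' := sub_mem hm' hm
      rw [sub_sub_sub_cancel_left, ← map_sub] at h'
      exact h'
  -- the root of the equation at `2`
  set t₂ : A := X 2 Nat.prime_two h2S with ht₂
  have ht2 : t₂ - 1 ∈ maximalIdeal A := by
    obtain ⟨t, ht, ht1, -⟩ := hres 2 Nat.prime_two h2S
    have h3 : algebraMap O A (t - 1) ∈ maximalIdeal A := fun hu => by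
      have h' := (IsLocalHom.map_nonunit (f := algebraMap O A) _ hu).map (residue O)
      rw [map_sub, ht1 rfl, map_one, sub_self] at h'
      exact not_isUnit_zero h'
    rw [show t₂ - 1 = (X 2 Nat.prime_two h2S - algebraMap O A t) + algebraMap O A (t - 1) by
      rw [ht₂, map_sub, map_one]; ring]
    exact add_mem ht h3
  have h2A : (2 : A) ∈ maximalIdeal A := fun hu => h2O (by
    rw [← map_ofNat (algebraMap O A)] at hu
    exact IsLocalHom.map_nonunit _ hu)
  obtain ⟨αA, hαA, hαA1⟩ : ∃ a : A, a * a + 2 = t₂ * a ∧ a - 1 ∈ maximalIdeal A := by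
    obtain ⟨a, ha, ha1⟩ := HenselianRing.is_henselian (I := maximalIdeal A)
      (Polynomial.X ^ 2 - Polynomial.C t₂ * Polynomial.X + Polynomial.C 2) (by monicity!) 1 (by
        simp only [Polynomial.eval_add, Polynomial.eval_sub, Polynomial.eval_pow,
          Polynomial.eval_mul, Polynomial.eval_X, Polynomial.eval_C, one_pow, mul_one]
        rw [show (1 : A) - t₂ + 2 = -(t₂ - 1) + 2 by ring]
        exact add_mem (neg_mem ht2) h2A) (by
        simp only [Polynomial.derivative_add, Polynomial.derivative_sub,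
          Polynomial.derivative_mul, Polynomial.derivative_X, Polynomial.derivative_C,
          Polynomial.eval_sub, Polynomial.eval_C, zero_mul, mul_one, zero_add, add_zero]
        refine IsUnit.map _ (IsLocalRing.notMem_maximalIdeal.mp fun hm => ?_)
        have h' := add_mem hm ht2
        norm_num at h')
    refine ⟨a, ?_, ha1⟩
    have h' := ha.eq_zero
    simp only [Polynomial.eval_add, Polynomial.eval_sub, Polynomial.eval_pow,
      Polynomial.eval_mul, Polynomial.eval_X, Polynomial.eval_C] at h'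
    linear_combination h'
  -- points
  have htf' : ∀ o : O, o ≠ 0 → ∀ y : T.NewQuot O H.subset B, algebraMap O O o • y = 0 → y = 0 :=
    htf
  have htfA : ∀ (o : O) (z : A), o ≠ 0 → algebraMap O A o * z = 0 → z = 0 := fun o z ho hz => by
    refine subRingAct_injective T H.S_sub H.subset B (LinearMap.ext fun y => ?_)
    rw [map_zero, LinearMap.zero_apply]
    refine htf o ho _ ?_
    have h' := LinearMap.congr_fun (congrArg act hz) y
    rw [map_mul, AlgHom.commutes, map_zero] at h'
    simpa using h'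
  have hnil : ∀ x : A, x ≠ 0 → ¬ IsNilpotent x := fun x hx ⟨k, hk⟩ => hx (by
    obtain ⟨a, rfl⟩ := Ideal.Quotient.mk_surjective x
    rw [← map_pow, Ideal.Quotient.eq_zero_iff_mem, RingHom.mem_ker, map_pow] at hk
    rw [Ideal.Quotient.eq_zero_iff_mem, RingHom.mem_ker]
    exact subAct_eq_zero_of_pow T H htf' a k hk)
  choose O₀ i1 i2 i3 i4 i5 i6 i7 i8 i9 θ₀ hθ₀ using
    fun x : {x : A // x ≠ 0} => exists_point O A htfA (hnil x.1 x.2)
  choose θ₀' hθ₀' using fun j => H.exists_bigPoint T (θ₀ j)
  have hP' : PairHyp D E C H.big (oneChars O) S ∅ V B := { P with }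
  have := (H.big.free_signed H.subset).1
  have : Module.Finite O (H.big.NewQuot O H.subset B) := inferInstance
  choose O' k1 k2 k3 k4 k5 k6 k7 k8 k9 h2' ι hι ρ α hdet htr hroot hcond hord N α₀ hα₀ hN hNtr
    using fun j => exists_pointPair H.big H.pointHyp hP' (θ₀' j)
      (fun q hq => absurd hq (Finset.notMem_empty q))
      (fun l hl2 P₁ hP₁ σ hσ => by
        obtain ⟨t, ht, -, ht'⟩ := hres _ l.1.2 l.2
        have := isLocalHom_point (θ₀ j)
        rw [← ht' hl2 P₁ hP₁ σ hσ, ResidueField.map_residue, ← (θ₀ j).commutes, hθ₀' j,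
          ← sub_eq_zero, ← map_sub, ← map_sub, residue_eq_zero_iff]
        exact fun hu => ht (IsLocalHom.map_nonunit (f := (θ₀ j : A →+* O₀ j)) _ hu))
      (fun h2 => by
        obtain ⟨t, ht, ht', -⟩ := hres 2 Nat.prime_two h2
        have := isLocalHom_point (θ₀ j)
        rw [← map_one (ResidueField.map (algebraMap O (O₀ j))), ← ht' rfl, ResidueField.map_residue,
          ← (θ₀ j).commutes, hθ₀' j, ← sub_eq_zero, ← map_sub, ← map_sub, residue_eq_zero_iff]
        exact fun hu => ht (IsLocalHom.map_nonunit (f := (θ₀ j : A →+* O₀ j)) _ hu))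
  let θ : ∀ j, A →ₐ[O] O' j := fun j => (ι j).comp (θ₀ j)
  have hθloc : ∀ j, IsLocalHom (θ j : A →+* O' j) := fun j => isLocalHom_point (θ j)
  have hinj : ∀ x : A, (∀ j, θ j x = 0) → x = 0 := fun x hx => by
    by_contra hne
    exact hθ₀ ⟨x, hne⟩ (hι _ ((hx ⟨x, hne⟩).trans (map_zero _).symm))
  have hθres : ∀ j (a b : A), a - b ∈ maximalIdeal A →
      residue (O' j) (θ j a) = residue (O' j) (θ j b) := fun j a b hab => by
    rw [← sub_eq_zero, ← map_sub, ← map_sub, residue_eq_zero_iff]
    exact fun hu => hab ((hθloc j).map_nonunit _ hu)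
  have hθX : ∀ j (l : ℕ) (hl : l.Prime) (hlS : l ∉ H.big.S),
      ι j (θ₀' j (Ideal.Quotient.mk _ (awayX O hl hlS))) = θ j (X l hl hlS) := fun j l hl hlS =>
    congrArg (ι j) (hθ₀' j _)
  have hone : ∀ n : ℕ, charProd (oneChars O) ∅ n = 1 := fun n => Finset.prod_empty
  choose fs hfs huniq using fun j => existsUnique_map U
    (residue_surjective_smallResidue (𝒪 := O) (A := O' j)) (hN j)
  let f : ∀ j, U.R →ₐ[O] O' j := fun j => (smallResidue O (O' j)).val.comp (fs j)
  have hfloc : ∀ j, IsLocalHom (f j : U.R →+* O' j) := fun j =>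
    haveI := (hfs j).1
    RingHom.isLocalHom_comp ((smallResidue O (O' j)).val : smallResidue O (O' j) →+* O' j)
      (fs j : U.R →+* smallResidue O (O' j))
  have hftr : ∀ j σ, f j (Matrix.trace (uRep U σ)) =
      ((Matrix.trace (N j σ) : smallResidue O (O' j)) : O' j) := fun j σ => by
    rw [← (hfs j).2.1]
    simp [f, Matrix.trace, Fin.sum_univ_two]
  have htrace : ∀ (l : ℕ) (hl : l.Prime) (hlS : l ∉ (↑S : Set ℕ)), l ≠ 2 →
      ∀ P : ValuationSubring (AlgebraicClosure ℚ), P.LiesOverPrime l → ∀ σ : GQ,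
        P.IsFrobeniusAt σ l → ∀ j, θ j (X l hl hlS) = f j (Matrix.trace (uRep U σ)) :=
    fun l hl hlS hl2 P₁ hP₁ σ hσ j => by
      have e := htr j ⟨⟨l, hl⟩, hlS⟩ hl2 P₁ hP₁ σ hσ
      rw [hone, map_one, map_one, map_one, one_mul] at e
      rw [hftr, hNtr, e]
      exact (hθX j l hl hlS).symm
  have hr : ∀ j, θ j αA = f j (uRoot U) := fun j => by
    show _ = ((fs j (uRoot U) : smallResidue O (O' j)) : O' j)
    rw [(hfs j).2.2]
    have e1 := congrArg (θ j) hαA
    rw [map_add, map_mul, map_mul, map_ofNat] at e1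
    have e2 : (α₀ j : O' j) * α₀ j + 2 = θ j t₂ * α₀ j := by
      have e := hroot j h2S
      rw [hone, map_one, map_one, map_one, one_mul] at e
      rw [hα₀, e]
      exact congrArg (· * α j) (hθX j 2 Nat.prime_two h2S)
    have r1 : residue (O' j) (θ j αA) = 1 := by rw [hθres j _ _ hαA1, map_one, map_one]
    have r2 : residue (O' j) (α₀ j : O' j) = 1 := by
      rw [← map_toResidue_smallResidue, (hN j).residue_eq, map_one]
    have r3 : residue (O' j) (θ j t₂) = 1 := by rw [hθres j _ _ ht2, map_one, map_one]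
    have hne : θ j αA + (α₀ j : O' j) - θ j t₂ ≠ 0 := fun h0 => by
      have h' := congrArg (residue (O' j)) h0
      rw [map_sub, map_add, r1, r2, r3, add_sub_cancel_right, map_zero] at h'
      exact one_ne_zero h'
    refine sub_eq_zero.mp ((mul_eq_zero.mp ?_).resolve_right hne)
    linear_combination e1 - e2
  let SF : Finset ℕ := S ∪ {2}
  obtain ⟨φ, -, -, hval⟩ := exists_algHom_of_points
    ((fun σ => Matrix.trace (uRep U σ)) '' frobeniusSet SF ∪ {uRoot U})
    (adjoin_root_trace_sub_mem U hspan SF) O' θ hθloc hinj f hfloc (by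
      rintro g (⟨σ, ⟨l, hl, hlS, P₁, hP₁, hσ⟩, rfl⟩ | rfl)
      · simp only [SF, Finset.mem_union, Finset.mem_singleton, not_or] at hlS
        exact ⟨_, htrace l hl (fun h' => hlS.1 (Finset.mem_coe.mp h')) hlS.2 P₁ hP₁ σ hσ⟩
      · exact ⟨αA, hr⟩)
  refine ⟨act.comp φ, fun l hl hlT hlS hl2 P₁ hP₁ σ hσ y => ?_, fun h2 y => ?_⟩
  · show act (φ _) y = _
    rw [hval _ _ (htrace l hl hlS hl2 P₁ hP₁ σ hσ), hXact l hl hlS hlT]
  · show act (φ (uRoot U)) (act (φ (uRoot U)) y) + (2 : O) • y =
      T.newAct O H.subset B _ (act (φ (uRoot U)) y)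
    rw [hval _ _ hr, ← hXact 2 Nat.prime_two h2S h2]
    have h' := LinearMap.congr_fun (congrArg act hαA) y
    rw [map_add, map_mul, map_mul, ← map_ofNat (algebraMap O A), AlgHom.commutes] at h'
    simpa only [Module.End.mul_apply, LinearMap.add_apply, Module.algebraMap_end_apply] using h'

end Fermat.Agent.TwoAdic.Base

end
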