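import Fermat.Agent.TwoAdic.Descend.Loop
import Fermat.Agent.TwoAdic.TopLevel

/-!
The count at the top from the count at the bottom: the iterated trace from the new quotient at all
auxiliary primes onto a residual quotient of the bottom one kills the entry ideal.
-/

set_option autoImplicit false

noncomputable section

open IsLocalRing GaloisRep CongruenceSubgroup Fermat.Agent.DefRing Fermat.Agent.Deform

namespace Fermat.Agent.TwoAdic

open HeckeJ0 LevelRaising HeckeModule

attribute [local instance] ALSetup.isPrime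

namespace Base

open Pair

variable {O : Type} [CommRing O] [IsDomain O] [IsDiscreteValuationRing O]
  [IsAdicComplete (maximalIdeal O) O] [Finite (ResidueField O)]
  {D : NormalData O} {E : LiftData} {Q : Finset ℕ} {C : Set (GQ × GQ)}
  {X : Type} [AddCommGroup X] [Module O X]

omit [IsAdicComplete (maximalIdeal O) O] in
/-- Constant traces at Frobenius elements are constant traces everywhere. -/
theorem trace_const {h : IsResidualPair D E Q C} (U : (pairFunctor h).UniversalPoint)
    {M : Type} [AddCommGroup M] [Module U.R M] [Module O M] [IsScalarTower O U.R M]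
    [Module.Finite O M] (hX : ∀ o ∈ maximalIdeal O, ∀ x : X, o • x = 0) (g : M →ₗ[O] X)
    (S : Finset ℕ)
    (hg : ∀ τ ∈ frobeniusSet S, ∀ o : O, residue O o = Matrix.trace (D.rbar τ) →
      ∀ m, g (Matrix.trace (uRep U τ) • m) = o • g m)
    (σ : GQ) (o : O) (ho : residue O o = Matrix.trace (D.rbar σ)) (m : M) :
    g (Matrix.trace (uRep U σ) • m) = o • g m := by
  obtain ⟨N, hN⟩ := Descend.exists_pow_act (Algebra.lsmul O O M : U.R →ₐ[O] Module.End O M) 1
  have hU := isPair_universal U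
  obtain ⟨hcont, -⟩ := hU.isDef.exists_cont
  obtain ⟨n, hn, hn1⟩ : ∃ n, N ≤ n ∧ 1 ≤ n := ⟨N + 1, by omega, by omega⟩
  let I := maximalIdeal U.R ^ n
  have hI1 : I ≤ maximalIdeal U.R := Ideal.pow_le_self (by omega)
  have : Nontrivial (U.R ⧸ I) := Ideal.Quotient.nontrivial_iff.mpr fun h =>
    (maximalIdeal.isMaximal U.R).ne_top (top_le_iff.mp (h ▸ hI1))
  have : IsLocalRing (U.R ⧸ I) :=
    IsLocalRing.of_surjective' (Ideal.Quotient.mk I) Ideal.Quotient.mk_surjective
  have : Finite (U.R ⧸ I) := U.finite_quotient n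
  have hq : IsLocalHom (Ideal.Quotient.mk I) :=
    isLocalHom_of_surjective' _ Ideal.Quotient.mk_surjective
  have hMc : IsCont (mapRep (Ideal.Quotient.mk I) (uRep U)) := hcont.map _ hq
  have : IsArtinianRing (U.R ⧸ I) := inferInstance
  obtain ⟨τ, hτ, hMτ⟩ := exists_frobenius_eq hMc S σ
  have hentry : ∀ i j, uRep U σ i j - uRep U τ i j ∈ I := fun i j => by
    have := congrFun (congrFun hMτ i) j
    simp only [mapRep_apply, Matrix.map_apply] at this
    first | exact Ideal.Quotient.eq.mp this | exact Ideal.Quotient.eq.mp this.symm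
  have htr : Matrix.trace (uRep U σ) - Matrix.trace (uRep U τ) ∈ I := by
    rw [Matrix.trace_fin_two, Matrix.trace_fin_two, add_sub_add_comm]
    exact add_mem (hentry 0 0) (hentry 1 1)
  have hred : ∀ ρ : GQ, toResidue U.instIsLocalHom U.residue_surjective
      (Matrix.trace (uRep U ρ)) = Matrix.trace (D.rbar ρ) := fun ρ => by
    have h1 := DFunLike.congr_fun hU.isDef.reduces ρ
    rw [Matrix.trace_fin_two, map_add, Matrix.trace_fin_two, ← h1]
    rfl
  have hτσ : Matrix.trace (D.rbar τ) = Matrix.trace (D.rbar σ) := by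
    rw [← hred, ← hred, eq_comm, ← sub_eq_zero, ← map_sub, toResidue_eq_zero_iff]
    exact hI1 htr
  have hz : g ((Matrix.trace (uRep U σ) - Matrix.trace (uRep U τ)) • m) = 0 := by
    have h1 := hN _ (Ideal.pow_le_pow_right hn htr) m
    rw [Algebra.lsmul_coe, pow_one] at h1
    exact Submodule.smul_induction_on (p := fun y => g y = 0) h1
      (fun r hr x _ => by rw [map_smul]; exact hX r hr _)
      fun x y hx hy => by rw [map_add, hx, hy, add_zero]
  rw [sub_smul, map_sub, sub_eq_zero] at hz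
  rw [hz, hg τ hτ o (ho.trans hτσ.symm) m]

variable [CharP (ResidueField O) 2]

omit [IsAdicComplete (maximalIdeal O) O] [CharP (ResidueField O) 2] in
/-- A map with constant traces kills the entry ideal. -/
theorem card_le_of_trace_const {h : IsResidualPair D E Q C} (U : (pairFunctor h).UniversalPoint)
    {M : Type} [AddCommGroup M] [Module U.R M] [Module O M] [IsScalarTower O U.R M]
    [Module.Finite O M] (hspan : Submodule.span (ResidueField O) (Set.range D.rbar) = ⊤)
    (hX : ∀ o ∈ maximalIdeal O, ∀ x : X, o • x = 0) (g : M →ₗ[O] X) (hg : Function.Surjective g)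
    (hσ : ∀ σ : GQ, ∀ o : O, residue O o = Matrix.trace (D.rbar σ) →
      ∀ m, g (Matrix.trace (uRep U σ) • m) = o • g m) :
    Nat.card X ≤ Nat.card (M ⧸ entryIdeal U • (⊤ : Submodule U.R M)) := by
  have := Pair.finite_quotient_smul_top (M₀ := M) (entryIdeal U) le_sup_left
  refine Pair.card_le_card_quotient_of_surjective (entryIdeal U) g.toAddMonoidHom hg fun a ha m =>
      ?_
  let K : Ideal U.R :=
    { carrier := {a | ∀ m : M, g (a • m) = 0}
      add_mem' := fun {a b} ha hb m => by rw [add_smul, map_add, ha, hb, add_zero]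
      zero_mem' := fun m => by rw [zero_smul, map_zero]
      smul_mem' := fun r a ha m => by rw [smul_eq_mul, mul_comm, mul_smul]; exact ha _ }
  suffices h1 : entryIdeal U ≤ K from h1 ha m
  by_cases hK : K = ⊤
  · rw [hK]; exact le_top
  have : Nontrivial (U.R ⧸ K) := Ideal.Quotient.nontrivial_iff.mpr hK
  have : IsLocalRing (U.R ⧸ K) :=
    IsLocalRing.of_surjective' (Ideal.Quotient.mk K) Ideal.Quotient.mk_surjective
  have hl : IsLocalHom (algebraMap O (U.R ⧸ K)) := ⟨fun o ho => by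
    by_contra hn
    refine not_isUnit_zero (M₀ := U.R ⧸ K) ?_
    rwa [← show algebraMap O (U.R ⧸ K) o = 0 from Ideal.Quotient.eq_zero_iff_mem.mpr fun m => by
      rw [algebraMap_smul, map_smul]; exact hX o hn _]⟩
  have hs : Function.Surjective (residue (U.R ⧸ K) ∘ algebraMap O (U.R ⧸ K)) := fun y => by
    obtain ⟨z, rfl⟩ := residue_surjective y
    obtain ⟨z, rfl⟩ := Ideal.Quotient.mk_surjective z
    obtain ⟨o, ho⟩ := U.residue_surjective (residue U.R z)
    refine ⟨o, ?_⟩
    rw [Function.comp_apply, ← sub_eq_zero, ← map_sub, residue_eq_zero_iff]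
    have h1 : algebraMap O U.R o - z ∈ maximalIdeal U.R := by
      rw [← residue_eq_zero_iff, map_sub, sub_eq_zero]; exact ho
    show Ideal.Quotient.mk K (algebraMap O U.R o) - Ideal.Quotient.mk K z ∈ _
    rw [← map_sub]
    exact fun hu => h1 ((isLocalHom_of_surjective' (Ideal.Quotient.mk K)
      Ideal.Quotient.mk_surjective).map_nonunit _ hu)
  have h2 := map_entryIdeal_eq_bot U hl hs (Ideal.Quotient.mkₐ O K)
    (isLocalHom_of_surjective' _ Ideal.Quotient.mk_surjective) hspan
    (fun o ho => Ideal.Quotient.eq_zero_iff_mem.mpr fun m => by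
      rw [algebraMap_smul, map_smul]; exact hX o ho _)
    (fun σ => by
      obtain ⟨o, ho⟩ := residue_surjective (Matrix.trace (D.rbar σ))
      refine ⟨o, ho, (Ideal.Quotient.eq (I := K)).mpr fun m => ?_⟩
      rw [sub_smul, map_sub, hσ σ o ho m, algebraMap_smul, map_smul, sub_self])
  exact fun x hx => Ideal.Quotient.eq_zero_iff_mem.mp
    ((Ideal.mem_bot).mp (h2 ▸ Ideal.mem_map_of_mem (Ideal.Quotient.mkₐ O K) hx))

variable [CharZero O]

open Descend in
/-- **The count at the top** from a surjection at the bottom on which the operators outside `S₀`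
are residual constants. -/
theorem card_le_loop (E : LiftData) (T : ALSetup O) (V₀ : Finset ℕ)
    (hspan : Submodule.span (ResidueField O) (Set.range D.rbar) = ⊤)
    (hS : T.CoreInS) (hV : V₀ ∪ E.aux ⊆ T.W)
    (hdisj : ∀ q ∈ E.aux, q ∉ V₀)
    (φ : ℕ → GQ) (hφ : ∀ q ∈ E.aux, (D.rbar (φ q)).trace = 0)
    (hihara : ∀ (q : ℕ) (S : Stage E), q ∈ S.1 → q.Prime →
      IharaPrimes (awayMonoid T.m) (T.level (V₀ ∪ (S.erase q).1)) q 2)
    (hcube : T.CubeInjective hV (V₀ ∪ E.aux))
    (h : ∀ S : Stage E, IsResidualPair D S.data Q C)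
    (U : ∀ S : Stage E, (pairFunctor (h S)).UniversalPoint)
    [∀ S : Stage E, Module (U S).R (T.NewQuot O (stage_subset E T V₀ hV S) (V₀ ∪ S.1))]
    [∀ S : Stage E, IsScalarTower O (U S).R (T.NewQuot O (stage_subset E T V₀ hV S) (V₀ ∪ S.1))]
    (S₀ : Finset ℕ) (τ : ℕ → AwayPoly O T.S)
    (hτ : ∀ (S : Stage E) (ℓ : ℕ), ℓ.Prime → ℓ ∉ S₀ → ∀ P' : ValuationSubring (AlgebraicClosure ℚ),
      P'.LiesOverPrime ℓ → ∀ σ : GQ, P'.IsFrobeniusAt σ ℓ →
        ∀ m : T.NewQuot O (stage_subset E T V₀ hV S) (V₀ ∪ S.1),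
          Matrix.trace (uRep (U S) σ) • m
            = T.newAct O (stage_subset E T V₀ hV S) (V₀ ∪ S.1) (τ ℓ) m)
    (κ : ℕ → O) (hκ : ∀ q ∈ E.aux, IsUnit (κ q))
    (hu : ∀ (q : ℕ) [Fact q.Prime] (S : Stage E) (hqW : q ∈ T.W)
      (hqV : q ∉ V₀ ∪ (S.erase q).1), q ∈ S.1 →
      ∀ m : T.NewQuot O (stage_subset E T V₀ hV (S.erase q)) (V₀ ∪ (S.erase q).1),
        ((uRep (U (S.erase q)) (φ q)).trace
            - (E.sgn q : (U (S.erase q)).R) * ((q : (U (S.erase q)).R) + 1)) • m
          = κ q • T.degQuot O (stage_subset E T V₀ hV (S.erase q)) hqW hqV _ m)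
    (hX : ∀ o ∈ maximalIdeal O, ∀ x : X, o • x = 0)
    (g₀ : T.NewQuot O (stage_subset E T V₀ hV ⟨∅, Finset.empty_subset _⟩) (V₀ ∪ ∅) →ₗ[O] X)
    (hg₀ : Function.Surjective g₀)
    (hres : ∀ ℓ : ℕ, ℓ.Prime → ℓ ∉ S₀ → ∀ P' : ValuationSubring (AlgebraicClosure ℚ),
      P'.LiesOverPrime ℓ → ∀ σ : GQ, P'.IsFrobeniusAt σ ℓ → ∀ o : O,
        residue O o = Matrix.trace (D.rbar σ) → ∀ m,
          g₀ (T.newAct O (stage_subset E T V₀ hV ⟨∅, Finset.empty_subset _⟩) (V₀ ∪ ∅) (τ ℓ) m)
            = o • g₀ m) :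
    Nat.card X ≤ Nat.card (T.NewQuot O (stage_subset E T V₀ hV ⟨E.aux, subset_rfl⟩) (V₀ ∪ E.aux) ⧸
      entryIdeal (U ⟨E.aux, subset_rfl⟩) • (⊤ : Submodule (U ⟨E.aux, subset_rfl⟩).R
        (T.NewQuot O (stage_subset E T V₀ hV ⟨E.aux, subset_rfl⟩) (V₀ ∪ E.aux)))) := by
  have hfin : ∀ S : Stage E,
      Module.Finite O (T.NewQuot O (stage_subset E T V₀ hV S) (V₀ ∪ S.1)) := fun S =>
    (T.free_newQuot (stage_subset E T V₀ hV S) subset_rfl
      (hcube.mono (Finset.union_subset_union_right S.2))).1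
  have key : ∀ (k : ℕ) (S : Stage E), S.1.card = k →
      ∃ g : T.NewQuot O (stage_subset E T V₀ hV S) (V₀ ∪ S.1) →ₗ[O] X, Function.Surjective g ∧
        ∀ ℓ : ℕ, ℓ.Prime → ℓ ∉ S₀ → ∀ P' : ValuationSubring (AlgebraicClosure ℚ),
          P'.LiesOverPrime ℓ → ∀ σ : GQ, P'.IsFrobeniusAt σ ℓ → ∀ o : O,
            residue O o = Matrix.trace (D.rbar σ) → ∀ m,
              g (T.newAct O (stage_subset E T V₀ hV S) (V₀ ∪ S.1) (τ ℓ) m) = o • g m := by
    intro k
    induction k with
    | zero =>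
      rintro ⟨S, hSA⟩ hk
      obtain rfl : S = ∅ := Finset.card_eq_zero.mp hk
      exact ⟨g₀, hg₀, hres⟩
    | succ k ih =>
      intro S hk
      obtain ⟨q, hq⟩ : S.1.Nonempty := Finset.card_pos.mp (by omega)
      have hqA := S.2 hq
      have := Fact.mk (E.aux_spec q hqA).1
      have := hfin (S.erase q)
      obtain ⟨g', hg', hg'res⟩ := ih (S.erase q) (by
        show (S.1.erase q).card = k
        rw [Finset.card_erase_of_mem hq, hk]; rfl)
      have hqW : q ∈ T.W := hV (Finset.mem_union_right V₀ hqA)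
      have hqV : q ∉ V₀ ∪ (S.erase q).1 := fun hm => (Finset.mem_union.mp hm).elim
        (hdisj q hqA) (Finset.notMem_erase q _)
      have hins := insert_union_erase V₀ hq
      have hSs := stage_subset E T V₀ hV S
      have hdeg : ∀ z, g' (T.degQuot O (T.face_subset hSs hins)
          (hSs (ALSetup.mem_of_insert_eq hins)) hqV (V₀ ∪ (S.erase q).1) z) = 0 := by
        intro z
        obtain ⟨c, hc⟩ := (hκ q hqA).exists_left_inv
        have h1 := hu q S hqW hqV hq z
        have hσ := trace_const (U (S.erase q)) hX g' S₀ (fun σ ⟨ℓ, hℓ, hℓS, P', hP', hσ⟩ o ho m =>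
          by rw [hτ (S.erase q) ℓ hℓ hℓS P' hP' σ hσ m]
             exact hg'res ℓ hℓ hℓS P' hP' σ hσ o ho m)
          (φ q) 0 (by rw [map_zero, hφ q hqA]) z
        rw [zero_smul] at hσ
        have hodd : (q : O) + 1 ∈ maximalIdeal O := by
          rw [← residue_eq_zero_iff, map_add, map_natCast, map_one,
            CharP.cast_eq_mod (ResidueField O) 2 q,
            Nat.odd_iff.mp ((E.aux_spec q hqA).1.odd_of_ne_two (E.aux_spec q hqA).2.1),
            Nat.cast_one]
          exact CharTwo.add_self_eq_zero 1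
        have h2 : g' (κ q • T.degQuot O (T.face_subset hSs hins)
            (hSs (ALSetup.mem_of_insert_eq hins)) hqV (V₀ ∪ (S.erase q).1) z) = 0 := by
          refine (congrArg g' h1.symm).trans ?_
          rw [sub_smul, map_sub, hσ, zero_sub, neg_eq_zero,
            show (E.sgn q : (U (S.erase q)).R) * ((q : (U (S.erase q)).R) + 1)
              = algebraMap O (U (S.erase q)).R ((E.sgn q : O) * ((q : O) + 1)) by
              rw [map_mul, map_intCast, map_add, map_natCast, map_one], algebraMap_smul, map_smul]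
          exact hX _ (Ideal.mul_mem_left _ _ hodd) _
        rw [map_smul] at h2
        have h3 := congrArg (fun x => c • x) h2
        simpa [smul_smul, hc] using h3
      obtain ⟨p, hp⟩ := T.exists_downMod hS hSs hqV hins hqV g' hdeg hins
      refine ⟨p, fun x => ?_, fun ℓ hℓ hℓS P' hP' σ hσ o ho m => ?_⟩
      · obtain ⟨y, hy⟩ := hg' x
        obtain ⟨y, rfl⟩ := Submodule.mkQ_surjective _ y
        obtain ⟨w, rfl⟩ := T.down_surjective hS hSs hqV hins
          (hihara q S hq (E.aux_spec q hqA).1) y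
        exact ⟨Submodule.Quotient.mk w, (hp w).trans hy⟩
      · obtain ⟨x, rfl⟩ := Submodule.mkQ_surjective _ m
        rw [Submodule.mkQ_apply, T.newAct_mk, hp, hp]
        refine Eq.trans (congrArg g' ?_) (hg'res ℓ hℓ hℓS P' hP' σ hσ o ho _)
        exact T.downQuot_newAct hS hSs hqV hins hqV (τ ℓ) (Submodule.Quotient.mk x)
  obtain ⟨g, hg, hgres⟩ := key _ ⟨E.aux, subset_rfl⟩ rfl
  have := hfin ⟨E.aux, subset_rfl⟩
  refine card_le_of_trace_const (U ⟨E.aux, subset_rfl⟩) hspan hX g hg fun σ o ho m =>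
    trace_const (U ⟨E.aux, subset_rfl⟩) hX g S₀ (fun σ ⟨ℓ, hℓ, hℓS, P', hP', hσ⟩ o ho m => ?_)
      σ o ho m
  rw [hτ _ ℓ hℓ hℓS P' hP' σ hσ m]
  exact hgres ℓ hℓ hℓS P' hP' σ hσ o ho m

end Base

end Fermat.Agent.TwoAdic

end
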