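import Fermat.Agent.TwoAdic.Base.Count
import Fermat.Agent.TwoAdic.C0.DoublingAway

/-!
The hypothesis `hdim` of the top step: the doubling at the bottom, carried up along the traces.
-/

set_option autoImplicit false

noncomputable section

open IsLocalRing GaloisRep CongruenceSubgroup Fermat.Agent.DefRing Fermat.Agent.Deform
open scoped DualNumber

namespace Fermat.Agent.TwoAdic

open HeckeJ0 LevelRaising HeckeModule

attribute [local instance] ALSetup.isPrime Module.quotientAnnihilator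

namespace Base

open Pair

variable {O : Type} [CommRing O] [IsDomain O] [IsDiscreteValuationRing O]
  [IsAdicComplete (maximalIdeal O) O] [Finite (ResidueField O)] [CharP (ResidueField O) 2]
  [CharZero O]
  {D : NormalData O} {Q : Finset ℕ} {C : Set (GQ × GQ)}

open Descend in
/-- **`hdim` of the top step.** At the level `V₀` without auxiliary primes the doubling gives `q⁴`
elements modulo the residual ideal away from `S₂ ⊆ S₀`; the traces carry them to the top. -/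
theorem card_top_of_doubling (E : LiftData) (T : ALSetup O) (V₀ : Finset ℕ) (hχ : T.χ = 1)
    (hspan : Submodule.span (ResidueField O) (Set.range D.rbar) = ⊤)
    (hS : T.CoreInS) (hV : V₀ ∪ E.aux ⊆ T.W)
    (hdisj : ∀ q ∈ E.aux, q ∉ V₀)
    (φ : ℕ → GQ) (hφ : ∀ q ∈ E.aux, (D.rbar (φ q)).trace = 0)
    (hihara : ∀ (q : ℕ) (S : Stage E), q ∈ S.1 → q.Prime →
      IharaPrimes (awayMonoid T.m) (T.level (V₀ ∪ (S.erase q).1)) q 2)
    (hcube : T.CubeInjective hV (V₀ ∪ E.aux))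
    (h : ∀ S : Stage E, IsResidualPair D S.data Q C)
    (U : ∀ S : Stage E, (pairFunctor (h S)).UniversalPoint)
    [∀ S : Stage E, Module (U S).R (T.NewQuot O (stage_subset E T V₀ hV S) (V₀ ∪ S.1))]
    [∀ S : Stage E, IsScalarTower O (U S).R (T.NewQuot O (stage_subset E T V₀ hV S) (V₀ ∪ S.1))]
    (S₀ : Finset ℕ) {S₂ : Set ℕ} (hS₂ : T.S ⊆ S₂) (hS₂S₀ : ∀ ℓ ∈ S₂, ℓ.Prime → ℓ ∈ S₀)
    (τ : ℕ → AwayPoly O T.S)
    (hτX : ∀ (ℓ : ℕ) (hℓ : ℓ.Prime) (hℓS : ℓ ∉ T.S), ℓ ∉ S₀ → τ ℓ = awayX O hℓ hℓS)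
    (hτ : ∀ (S : Stage E) (ℓ : ℕ), ℓ.Prime → ℓ ∉ S₀ → ∀ P' : ValuationSubring (AlgebraicClosure ℚ),
      P'.LiesOverPrime ℓ → ∀ σ : GQ, P'.IsFrobeniusAt σ ℓ →
        ∀ m : T.NewQuot O (stage_subset E T V₀ hV S) (V₀ ∪ S.1),
          Matrix.trace (uRep (U S) σ) • m
            = T.newAct O (stage_subset E T V₀ hV S) (V₀ ∪ S.1) (τ ℓ) m)
    (κ : ℕ → O) (hκ : ∀ q ∈ E.aux, IsUnit (κ q))
    (hu : ∀ (q : ℕ) [Fact q.Prime] (S : Stage E) (hqW : q ∈ T.W)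
      (hqV : q ∉ V₀ ∪ (S.erase q).1), q ∈ S.1 →
      ∀ m : T.NewQuot O (stage_subset E T V₀ hV (S.erase q)) (V₀ ∪ (S.erase q).1),
        ((uRep (U (S.erase q)) (φ q)).trace
            - (E.sgn q : (U (S.erase q)).R) * ((q : (U (S.erase q)).R) + 1)) • m
          = κ q • T.degQuot O (stage_subset E T V₀ hV (S.erase q)) hqW hqV _ m)
    (hmres : ∀ (l : AwayIndex T.S), ((l : Nat.Primes) : ℕ) ∉ S₀ →
      ∀ P : ValuationSubring (AlgebraicClosure ℚ), P.LiesOverPrime ((l : Nat.Primes) : ℕ) →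
        ∀ φ : GQ, P.IsFrobeniusAt φ ((l : Nat.Primes) : ℕ) → ∀ o : O,
          residue O o = (D.rbar φ).trace → MvPolynomial.X l - MvPolynomial.C o ∈ T.m)
    {V : Finset ℕ} (hVeq : V₀ ∪ ∅ = V) (hVW : V ⊆ T.W) (hlow : T.LowerVanish V)
    [NeZero (T.level V)] (b : Module.Basis (Fin 2) (T.HeckeH V) (T.H V O))
    (Φ : HeckePoly ℤ →+* (ResidueField O)[ε]) (hΦ : C0.KillsCoh (T.level V) Φ)
    (hunit : ∀ a ∈ awayMonoid T.m, IsUnit (C0.extendHom (ALSetup.resDual (O := O)) Φ a))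
    (hm : ∀ a, restrictAway O hS₂ a ∈ T.m →
      C0.extendHom (ALSetup.resDual (O := O)) Φ (awayIncl O S₂ a) = 0)
    (hU : ∀ (l : Nat.Primes), (l : ℕ) ∈ V → Φ (MvPolynomial.X l) = 1)
    {l₀ : Nat.Primes} (hl₀ : Φ (MvPolynomial.X l₀) = 1 + ε) :
    Nat.card (ResidueField O) ^ 4 ≤
      Nat.card (T.NewQuot O (stage_subset E T V₀ hV ⟨E.aux, subset_rfl⟩) (V₀ ∪ E.aux) ⧸
        entryIdeal (U ⟨E.aux, subset_rfl⟩) • (⊤ : Submodule (U ⟨E.aux, subset_rfl⟩).R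
          (T.NewQuot O (stage_subset E T V₀ hV ⟨E.aux, subset_rfl⟩) (V₀ ∪ E.aux)))) := by
  subst hVeq
  have := ALSetup.finite_signedHecke hVW hχ hlow
  set T0 := C0.HeckeImage O (ALSetup.signedHecke hVW hχ hlow)
  set C₀ := ALSetup.signedHecke hVW hχ hlow
  set I : Ideal T0 := T.residualIdealAway _ hVW hχ hlow hS₂
  have hmax : (maximalIdeal O).map (algebraMap O T0) ≤ I := le_sup_left
  have hfin := Pair.finite_quotient_smul_top (M₀ := C₀) I hmax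
  have h4 : Nat.card (ResidueField O) ^ 4 ≤ Nat.card (C₀ ⧸ I • (⊤ : Submodule T0 C₀)) :=
    ALSetup.pow_four_le_card_of_doubling_away hVW hχ hlow b hS₂ Φ hΦ hunit hm hU hl₀ I id
      (fun x hx => hx) (I • (⊤ : Submodule T0 C₀)).mkQ.toAddMonoidHom
      (Submodule.mkQ_surjective _) fun x m => (I • (⊤ : Submodule T0 C₀)).mkQ.map_smul x m
  refine h4.trans ?_
  have hX : ∀ o ∈ maximalIdeal O, ∀ x : C₀ ⧸ I • (⊤ : Submodule T0 C₀), o • x = 0 := fun o ho x =>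
      by
    refine Submodule.Quotient.induction_on _ x fun y => ?_
    exact (algebraMap_smul T0 o _).symm.trans ((Submodule.Quotient.mk_eq_zero _).mpr
      (Submodule.smul_mem_smul (hmax (Ideal.mem_map_of_mem _ ho)) Submodule.mem_top))
  let g₀ : T.NewQuot O hVW (V₀ ∪ ∅) →ₗ[O] C₀ ⧸ I • (⊤ : Submodule T0 C₀) :=
    ((I • (⊤ : Submodule T0 C₀)).mkQ.restrictScalars O) ∘ₗ
      (ALSetup.signedHeckeEquiv hVW hχ hlow).symm.toLinearMap ∘ₗ
      (ALSetup.newQuotEquiv hVW hlow (V₀ ∪ ∅)).toLinearMap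
  refine card_le_loop E T V₀ hspan hS hV hdisj φ hφ hihara hcube h U S₀ τ hτ κ hκ hu hX g₀ ?_ ?_
  · intro x
    refine Submodule.Quotient.induction_on _ x fun y => ?_
    exact ⟨(ALSetup.newQuotEquiv hVW hlow _).symm (ALSetup.signedHeckeEquiv hVW hχ hlow y),
      by simp [g₀]⟩
  intro ℓ hℓ hℓS₀ P' hP' σ hσ o ho m
  have hℓS₂ : ℓ ∉ S₂ := fun hm => hℓS₀ (hS₂S₀ ℓ hm hℓ)
  have hℓS : ℓ ∉ T.S := fun hm => hℓS₂ (hS₂ hm)
  have hmem : restrictAway O hS₂ (awayX O hℓ hℓS₂ - MvPolynomial.C o) ∈ T.m := by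
    have h1 : restrictAway O hS₂ (awayX O hℓ hℓS₂ - MvPolynomial.C o)
        = awayX O hℓ hℓS - MvPolynomial.C o := by
      rw [map_sub, ← MvPolynomial.algebraMap_eq, AlgHom.commutes, awayX, restrictAway,
        MvPolynomial.rename_X]
      rfl
    rw [h1]
    exact hmres ⟨⟨ℓ, hℓ⟩, hℓS⟩ hℓS₀ P' hP' σ hσ o ho
  refine Submodule.Quotient.induction_on _ m fun x => ?_
  refine (congrArg (fun a => g₀ (T.newAct O hVW (V₀ ∪ ∅) a (Submodule.mkQ _ x)))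
    (hτX ℓ hℓ hℓS hℓS₀)).trans ?_
  refine sub_eq_zero.mp
    (((congrArg (_ - ·) (g₀.map_smul o _).symm).trans (map_sub g₀ _ _).symm).trans ?_)
  let y : C₀ := ⟨(x : T.H (V₀ ∪ ∅) O), x.2⟩
  have hy : ALSetup.signedHeckeEquiv hVW hχ hlow y = x := rfl
  have h2 : g₀ (T.newAct O hVW (V₀ ∪ ∅) (awayX O hℓ hℓS) (Submodule.mkQ _ x)
      - o • Submodule.mkQ _ x) = Submodule.mkQ (I • (⊤ : Submodule T0 C₀))
        ((Ideal.Quotient.mk _ (awayIncl O S₂ (awayX O hℓ hℓS₂ - MvPolynomial.C o)) : T0) • y) := by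
    show Submodule.mkQ (I • (⊤ : Submodule T0 C₀)) _ = _
    refine congrArg (Submodule.mkQ (I • (⊤ : Submodule T0 C₀))) (Subtype.ext ?_)
    show awayIncl O T.S (awayX O hℓ hℓS) • (x : T.H (V₀ ∪ ∅) O) - o • (x : T.H (V₀ ∪ ∅) O) =
      awayIncl O S₂ (awayX O hℓ hℓS₂ - MvPolynomial.C o) • (x : T.H (V₀ ∪ ∅) O)
    rw [awayX, awayX, map_sub, sub_smul, awayIncl_X, awayIncl_X, ← MvPolynomial.algebraMap_eq,
      AlgHom.commutes, algebraMap_smul]
  refine h2.trans ((Submodule.Quotient.mk_eq_zero _).mpr (Submodule.smul_mem_smul ?_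
      Submodule.mem_top))
  exact ALSetup.mk_mem_residualIdealAway hVW hχ hlow hS₂ hmem

end Base

end Fermat.Agent.TwoAdic

end
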