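import Fermat.Agent.TwoAdic.C0.Transfer
import Fermat.Agent.TwoAdic.Route.BaseDoubling

/-!
The localised cohomology at the base level is non-zero: a homomorphism killing the integral
annihilator and invertible on the multiplicative set would send `1` to `0`.
-/

set_option autoImplicit false

noncomputable section

open IsLocalRing GaloisRep Fermat.Agent.DefRing
open scoped DualNumber

namespace Fermat.Agent.TwoAdic

open HeckeJ0 LevelRaising HeckeModule

attribute [local instance] ALSetup.isPrime

variable {O : Type} [CommRing O] [IsLocalRing O] [IsNoetherianRing O]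
  [IsAdicComplete (maximalIdeal O) O] [IsDomain O] [CharZero O]

omit [IsNoetherianRing O] [IsAdicComplete (maximalIdeal O) O] in
/-- **Non-vanishing.** A homomorphism to a non-zero ring killing the integral annihilator and
invertible on the multiplicative set shows that the localised cohomology is non-zero. -/
theorem ALSetup.nontrivial_H_of_killsCoh {T : ALSetup O} {V : Finset ℕ} (hV : V ⊆ T.W)
    (hχ : T.χ = 1) {B : Type} [CommRing B] [Nontrivial B] (θ : O →+* B) (φ : HeckePoly ℤ →+* B)
    (hφ : C0.KillsCoh (T.level V) φ)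
    (hunit : ∀ a ∈ awayMonoid T.m, IsUnit (C0.extendHom θ φ a)) : Nontrivial (T.H V O) := by
  have : NeZero (T.level V) := ⟨T.level_ne_zero hV⟩
  rcases subsingleton_or_nontrivial (T.H V O) with _ | h
  · have h1 := ALSetup.extendHom_eq_zero_of_annihilator hV hχ θ φ hφ hunit
      (P := 1) (Module.mem_annihilator.mpr fun x => Subsingleton.elim _ _)
    rw [map_one] at h1
    exact absurd h1 one_ne_zero
  · exact h

namespace TopDown

variable [CharP (ResidueField O) 2]

omit [IsNoetherianRing O] [IsAdicComplete (maximalIdeal O) O] in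
/-- **The base level of a base setup carries classes.** -/
theorem nontrivial_base_H {E : LiftData} {r : MRep (ResidueField O)} {Sm R X : Finset ℕ}
    (hR : CorePrimes E r R X) (hdbl : HasDoubling E.D r Sm) (hmod : IsResiduallyModular E.D r Sm)
    (hRSm : Disjoint R Sm) (T : ALSetup O) (hχ : T.χ = 1)
    (hW : E.D.primeFactors.erase E.ℓ₀ ⊆ T.W) {Sx : Finset ℕ} {t : ℕ → O}
    (hcore : T.core = E.ℓ₀ * prodOf R) (hS : T.S = ↑Sx) (hD : E.D.primeFactors ⊆ Sx)
    (hSm : ∀ l ∈ Sm, l ≠ 2 → l ∈ Sx)
    (ht : ∀ q ∈ R, residue O (t q) * residue O (t q) + residue O (t q) + 1 = 0)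
    (hm : ∀ (l : AwayIndex T.S) (o : O), MvPolynomial.X l - MvPolynomial.C o ∈ T.m ↔
      baseEigen r R t ((l : Nat.Primes) : ℕ) = residue O o) :
    Nontrivial (T.H (E.D.primeFactors.erase E.ℓ₀) O) := by
  obtain ⟨Φ, hΦ, hunit, -⟩ := exists_basePhi hR hdbl hmod hRSm T hcore hS hD hSm ht hm
    (hS.trans_subset (Finset.coe_subset.mpr (Finset.subset_insert 2 Sx)))
  exact ALSetup.nontrivial_H_of_killsCoh hW hχ (ALSetup.resDual (O := O)) Φ hΦ hunit

end TopDown

end Fermat.Agent.TwoAdic

end
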