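import Fermat.Agent.TwoAdic.C0.Setup
import Fermat.Agent.TwoAdic.Patching
import Fermat.Agent.TwoAdic.Scalar.FinalData
import Fermat.Agent.TwoAdic.Descend.GaloisPair
import Fermat.Agent.TwoAdic.Descend.Intertwine

/-!
At a level with vanishing faces the ring of pairs is the Hecke algebra of the signed part: the
inputs `φ`, complete intersection and basis of the criterion at the squares, from the output of
the descent.
-/

set_option autoImplicit false

noncomputable section

open IsLocalRing GaloisRep Fermat.Agent.DefRing Fermat.Agent.Deform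

namespace Fermat.Agent.TwoAdic

namespace Base

/-- A finite algebra acting faithfully on a module free of rank two over `R`, with half of its
rank, is `R` as soon as it contains generators of `R` modulo the uniformizer. -/
theorem exists_bijective_algHom {O : Type} [CommRing O] [IsDomain O] [IsLocalRing O]
    [IsNoetherianRing O] {R : Type} [CommRing R] [Nontrivial R] [Algebra O R] [Module.Finite O R]
    [Module.Free O R] {A : Type} [CommRing A] [Algebra O A] [Module.Finite O A]
    {C : Type} [AddCommGroup C] [Module O C] [Module R C] [IsScalarTower O R C]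
    (b : Module.Basis (Fin 2) R C) (act : A →ₐ[O] Module.End O C) (hinj : Function.Injective act)
    (hrank : Module.finrank O C = 2 * Module.finrank O A)
    (G : Set R) (hG : ∀ g ∈ G, ∃ g', (∃ a, ∀ x, act a x = g' • x) ∧
      g - g' ∈ (maximalIdeal O).map (algebraMap O R))
    (hgen : ∀ r, ∃ s ∈ Algebra.adjoin O G, r - s ∈ (maximalIdeal O).map (algebraMap O R)) :
    ∃ φ : R →ₐ[O] A, Function.Bijective φ ∧ ∀ r x, act (φ r) x = r • x := by
  classical
  set J := (maximalIdeal O).map (algebraMap O R) with hJ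
  let B : Subalgebra O R := act.range.comap (Algebra.lsmul O O C)
  have hB : ∀ g', (∃ a, ∀ x, act a x = g' • x) → g' ∈ B := fun g' ⟨a, ha⟩ =>
    (Subalgebra.mem_comap _ _ _).mpr ((AlgHom.mem_range _).mpr ⟨a, LinearMap.ext ha⟩)
  let Bm : Subalgebra O R := (B.map (Ideal.Quotient.mkₐ O J)).comap (Ideal.Quotient.mkₐ O J)
  have hBm : ∀ r ∈ Bm, r ∈ Subalgebra.toSubmodule B ⊔ maximalIdeal O • (⊤ : Submodule O R) := by
    intro r hr
    obtain ⟨g', hg', he⟩ := Subalgebra.mem_map.mp ((Subalgebra.mem_comap _ _ _).mp hr)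
    refine Submodule.mem_sup.mpr ⟨g', hg', r - g', ?_, by abel⟩
    rw [Ideal.smul_top_eq_map]
    exact Ideal.Quotient.eq.mp he.symm
  have hGm : Algebra.adjoin O G ≤ Bm := Algebra.adjoin_le fun g hg => by
    obtain ⟨g', hg', hd⟩ := hG g hg
    exact (Subalgebra.mem_comap _ _ _).mpr (Subalgebra.mem_map.mpr
      ⟨g', hB g' hg', (Ideal.Quotient.eq.mpr hd).symm⟩)
  have hall : ∀ r, r ∈ B := by
    have htop : (⊤ : Submodule O R) ≤ Subalgebra.toSubmodule B ⊔
        maximalIdeal O • (⊤ : Submodule O R) := fun r _ => by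
      obtain ⟨s, hs, hrs⟩ := hgen r
      rw [show r = (r - s) + s by abel]
      exact add_mem (Submodule.mem_sup_right (by rw [Ideal.smul_top_eq_map]; exact hrs))
        (hBm s (hGm hs))
    intro r
    exact Submodule.le_of_le_smul_of_le_jacobson_bot (R := O) Module.Finite.fg_top
      (maximalIdeal_le_jacobson _) htop (Submodule.mem_top : r ∈ (⊤ : Submodule O R))
  let f : R →ₐ[O] act.range := (Algebra.lsmul O O C).codRestrict act.range fun r => hall r
  let e : A ≃ₐ[O] act.range := AlgEquiv.ofInjective act hinj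
  let φ : R →ₐ[O] A := (e.symm : act.range →ₐ[O] A).comp f
  have hφ : ∀ r x, act (φ r) x = r • x := fun r x => by
    have h : act (φ r) = Algebra.lsmul O O C r := congrArg Subtype.val (e.apply_symm_apply (f r))
    rw [h]
    rfl
  have hφi : Function.Injective φ := by
    refine (injective_iff_map_eq_zero φ).mpr fun r hr => ?_
    have h := hφ r (b 0)
    rw [hr, map_zero, LinearMap.zero_apply] at h
    have h' := congrArg (fun z => b.repr z 0) h
    simpa using h'.symm
  have : Module.Free R C := Module.Free.of_basis b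
  have : Module.Finite R C := Module.Finite.of_basis b
  have htf : Module.IsTorsionFree O R := inferInstance
  refine ⟨φ, ⟨hφi, fun a => ?_⟩, hφ⟩
  -- the ranks agree, so a multiple of `a` comes from `R`
  have hr : Module.finrank O A ≤ Module.finrank O (LinearMap.range φ.toLinearMap) := by
    rw [LinearMap.finrank_range_of_inj (f := φ.toLinearMap) hφi]
    have h := Module.finrank_mul_finrank O R C
    rw [hrank, Module.finrank_eq_card_basis b, Fintype.card_fin] at h
    omega
  obtain ⟨d, hd, hda⟩ : ∃ d : O, d ≠ 0 ∧ d • a ∈ LinearMap.range φ.toLinearMap := by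
    have hle := Module.finrank_quotient_add_finrank_le (LinearMap.range φ.toLinearMap)
    obtain ⟨d, hd, h⟩ := Module.finrank_eq_zero_iff.mp
      (show Module.finrank O (A ⧸ LinearMap.range φ.toLinearMap) = 0 by omega)
      (Submodule.Quotient.mk a)
    exact ⟨d, hd, by rwa [← Submodule.Quotient.mk_smul, Submodule.Quotient.mk_eq_zero] at h⟩
  obtain ⟨r, hr⟩ := hda
  have hr' : φ r = d • a := hr
  -- `act a` is linear over `R`, hence a scalar
  have hlin : ∀ s x, act a (s • x) = s • act a x := fun s x => by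
    rw [← hφ s x, ← Module.End.mul_apply, ← map_mul, mul_comm, map_mul, Module.End.mul_apply, hφ]
  have hmul : ∀ x, d • act a x = r • x := fun x => by
    rw [← LinearMap.smul_apply, ← map_smul, ← hr', hφ]
  have hcoord : ∀ i j, d • b.repr (act a (b j)) i = if j = i then r else 0 := fun i j => by
    have h := congrArg (fun z => b.repr z i) (hmul (b j))
    rw [← algebraMap_smul R d (act a (b j)), map_smul, map_smul, b.repr_self] at h
    simpa [Finsupp.single_apply, Algebra.smul_def, mul_ite] using h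
  let c := b.repr (act a (b 0)) 0
  have hc : ∀ j, act a (b j) = c • b j := fun j => by
    refine b.repr.injective (Finsupp.ext fun i => smul_right_injective R hd ?_)
    show d • b.repr (act a (b j)) i = d • b.repr (c • b j) i
    rw [hcoord i j, map_smul, b.repr_self, Finsupp.smul_single, smul_eq_mul, mul_one,
      Finsupp.single_apply]
    split_ifs with h
    · exact ((hcoord 0 0).trans (if_pos rfl)).symm
    · rw [smul_zero]
  refine ⟨c, hinj (LinearMap.ext fun x => ?_)⟩
  rw [hφ, ← b.sum_equivFun x, map_sum, Finset.smul_sum]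
  exact Finset.sum_congr rfl fun j _ => by rw [hlin, hc, smul_comm]

end Base

open HeckeJ0 LevelRaising HeckeModule

attribute [local instance] ALSetup.isPrime Module.quotientAnnihilator

namespace ALSetup

variable {O : Type} [CommRing O] [IsLocalRing O] {T : ALSetup O} {V : Finset ℕ} (hV : V ⊆ T.W)
  (hχ : T.χ = 1) (hlow : T.LowerVanish V)

/-- The signed part, read with all Hecke operators, is every new quotient. -/
def signedQuotEquiv (B : Finset ℕ) : signedHecke hV hχ hlow ≃ₗ[O] T.NewQuot O hV B :=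
  (signedHeckeEquiv hV hχ hlow).trans (newQuotEquiv hV hlow B).symm

/-- The equivalence is linear over the operators away from `S`. -/
theorem signedQuotEquiv_smul (B : Finset ℕ) (a : AwayPoly O T.S) (x : signedHecke hV hχ hlow) :
    signedQuotEquiv hV hχ hlow B ((awayIncl O T.S a : HeckePoly O) • x)
      = T.newAct O hV B a (signedQuotEquiv hV hχ hlow B x) := rfl

end ALSetup

namespace Base

open Pair

variable {O : Type} [CommRing O] [IsDomain O] [IsDiscreteValuationRing O] [CharZero O]
  [IsAdicComplete (maximalIdeal O) O] [Finite (ResidueField O)] [CharP (ResidueField O) 2]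
  {D : NormalData O} {E : LiftData} {Q : Finset ℕ} {C : Set (GQ × GQ)}
  {h : IsResidualPair D E Q C} (T : ALSetup O) {V B : Finset ℕ} (hV : V ⊆ T.W)

/-- **`R₀` is the Hecke algebra of `C₀`.**  If the new quotient at a level with vanishing faces is
free of rank two over the ring of pairs, the traces and the root acting as the operators, the ring
of pairs is the image of all Hecke operators on the signed part. -/
theorem exists_ringEquiv_heckeImage [Fact (Nat.Prime 2)] (hχ : T.χ = 1) (hlow : T.LowerVanish V)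
    (hSfin : T.S.Finite) (U : (pairFunctor h).UniversalPoint)
    (hspan : Submodule.span (ResidueField O) (Set.range D.rbar) = ⊤)
    [Module U.R (T.NewQuot O hV B)] [IsScalarTower O U.R (T.NewQuot O hV B)]
    (S₀ : Finset ℕ) (h2 : 2 ∉ T.S)
    (hτ : ∀ (ℓ : ℕ) (hℓ : ℓ.Prime) (hℓS : ℓ ∉ T.S), ℓ ∉ S₀ →
      ∀ P : ValuationSubring (AlgebraicClosure ℚ), P.LiesOverPrime ℓ →
        ∀ σ : GQ, P.IsFrobeniusAt σ ℓ → ∀ m : T.NewQuot O hV B,
          Matrix.trace (uRep U σ) • m = T.newAct O hV B (awayX O hℓ hℓS) m)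
    (hα : ∀ m : T.NewQuot O hV B,
      T.newAct O hV B (awayX O Nat.prime_two h2) (uRoot U • m)
        = uRoot U • uRoot U • m + (2 : O) • m)
    (hci : IsFiniteCI O U.R) (β : Module.Basis (Fin 2) U.R (T.NewQuot O hV B)) :
    ∃ φ : U.R →ₐ[O] C0.HeckeImage O (ALSetup.signedHecke hV hχ hlow),
      Function.Bijective φ ∧
      IsFiniteCI O (C0.HeckeImage O (ALSetup.signedHecke hV hχ hlow)) ∧
      IsLocalRing (C0.HeckeImage O (ALSetup.signedHecke hV hχ hlow)) ∧
      Nonempty (Module.Basis (Fin 2) (C0.HeckeImage O (ALSetup.signedHecke hV hχ hlow))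
        (ALSetup.signedHecke hV hχ hlow)) ∧
      IsUnit (φ (uRoot U)) ∧
      φ (uRoot U) * φ (uRoot U) + 2 =
        Ideal.Quotient.mk _ (MvPolynomial.X (⟨2, Nat.prime_two⟩ : Nat.Primes)) * φ (uRoot U) ∧
      (∀ r x, ALSetup.signedQuotEquiv hV hχ hlow B (φ r • x)
        = r • ALSetup.signedQuotEquiv hV hχ hlow B x) ∧
      ∀ (ℓ : ℕ) (hℓ : ℓ.Prime), ℓ ∉ T.S → ℓ ∉ S₀ →
        ∀ P : ValuationSubring (AlgebraicClosure ℚ), P.LiesOverPrime ℓ →
          ∀ σ : GQ, P.IsFrobeniusAt σ ℓ →
            φ (Matrix.trace (uRep U σ))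
              = Ideal.Quotient.mk _ (MvPolynomial.X (⟨ℓ, hℓ⟩ : Nat.Primes)) := by
  classical
  obtain ⟨hfin, hfree, hpres⟩ := id hci
  let M₀ := ALSetup.signedHecke hV hχ hlow
  let e : M₀ ≃ₗ[O] T.NewQuot O hV B := ALSetup.signedQuotEquiv hV hχ hlow B
  let : Module U.R M₀ := AddEquiv.module U.R e.toAddEquiv
  have hsmul : ∀ (r : U.R) (x : M₀), e (r • x) = r • e x := fun r x => e.apply_symm_apply _
  have : IsScalarTower O U.R M₀ := ⟨fun o r x => e.injective (by
    rw [hsmul, map_smul, hsmul, smul_assoc])⟩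
  let b : Module.Basis (Fin 2) U.R M₀ := β.map ({ e.symm.toAddEquiv with
    map_smul' := fun r y => e.injective (by
      show e (e.symm (r • y)) = e (r • e.symm y)
      rw [hsmul, e.apply_symm_apply, e.apply_symm_apply]) } : T.NewQuot O hV B ≃ₗ[U.R] M₀)
  have := ALSetup.finite_heckeImage hV hχ hlow
  let act : C0.HeckeImage O M₀ →ₐ[O] Module.End O M₀ := Algebra.lsmul O O M₀
  have hinj : Function.Injective act :=
    (injective_iff_map_eq_zero act).mpr fun t ht => heckeImage_eq_zero fun x =>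
      DFunLike.congr_fun ht x
  -- the unit root
  have hu : IsUnit (uRoot U) := by
    by_contra hc
    have h1 := (toResidue_eq_zero_iff U.instIsLocalHom U.residue_surjective).mpr hc
    rw [(isPair_universal U).residue_eq] at h1
    exact one_ne_zero h1
  obtain ⟨αi, hαi⟩ := hu.exists_right_inv
  set y : U.R := uRoot U + 2 * αi with hy
  have hyα : y * uRoot U = uRoot U * uRoot U + 2 := by
    rw [hy]; linear_combination 2 * hαi
  have hX2 : ∀ x : M₀, (MvPolynomial.X (⟨2, Nat.prime_two⟩ : Nat.Primes) : HeckePoly O) • x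
      = y • x := fun x => by
    refine e.injective ?_
    have hcast : ((2 : O) • (αi • e x)) = ((2 : U.R) * αi) • e x := by
      rw [← algebraMap_smul U.R (2 : O) (αi • e x), smul_smul, map_ofNat]
    have h1 := hα (αi • e x)
    rw [smul_smul, hαi, one_smul] at h1
    rw [hsmul, hy, add_smul, ← hcast, ← h1]
    rw [show (MvPolynomial.X (⟨2, Nat.prime_two⟩ : Nat.Primes) : HeckePoly O)
      = awayIncl O T.S (awayX O Nat.prime_two h2) from (awayIncl_X (O := O) (S := T.S)
          ⟨⟨2, Nat.prime_two⟩, h2⟩).symm]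
    exact ALSetup.signedQuotEquiv_smul hV hχ hlow B _ x
  have htr : ∀ (ℓ : ℕ) (hℓ : ℓ.Prime) (hℓS : ℓ ∉ T.S), ℓ ∉ S₀ →
      ∀ P : ValuationSubring (AlgebraicClosure ℚ), P.LiesOverPrime ℓ →
        ∀ σ : GQ, P.IsFrobeniusAt σ ℓ → ∀ x : M₀,
          (MvPolynomial.X (⟨ℓ, hℓ⟩ : Nat.Primes) : HeckePoly O) • x
            = Matrix.trace (uRep U σ) • x := fun ℓ hℓ hℓS hℓ0 P hP σ hσ x => by
    refine e.injective ?_
    rw [hsmul, hτ ℓ hℓ hℓS hℓ0 P hP σ hσ,
      show (MvPolynomial.X (⟨ℓ, hℓ⟩ : Nat.Primes) : HeckePoly O)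
        = awayIncl O T.S (awayX O hℓ hℓS) from (awayIncl_X (O := O) (S := T.S) ⟨⟨ℓ, hℓ⟩, hℓS⟩).symm]
    exact ALSetup.signedQuotEquiv_smul hV hχ hlow B _ x
  -- generators modulo the uniformizer
  obtain ⟨N, hN⟩ := Descend.exists_pow_act (Algebra.lsmul O O U.R : U.R →ₐ[O] Module.End O U.R) 1
  have hpow : maximalIdeal U.R ^ N ≤ (maximalIdeal O).map (algebraMap O U.R) := fun x hx => by
    have h1 := hN x hx 1
    rw [pow_one, Algebra.lsmul_coe, Ideal.smul_top_eq_map] at h1
    simpa using h1
  set G : Set U.R := (fun σ => Matrix.trace (uRep U σ)) '' frobeniusSet (S₀ ∪ hSfin.toFinset)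
    ∪ {uRoot U}
  obtain ⟨φ, hφ, hφact⟩ := exists_bijective_algHom b act hinj
    (by rw [(ALSetup.signedHeckeEquiv hV hχ hlow).finrank_eq,
      ALSetup.finrank_signed_eq_two_mul hV hχ hlow]) G
    (fun g hg => by
      rcases hg with ⟨σ, ⟨ℓ, hℓ, hℓS, P, hP, hσ⟩, rfl⟩ | rfl
      · rw [Finset.mem_union, not_or, Set.Finite.mem_toFinset] at hℓS
        exact ⟨_, ⟨Ideal.Quotient.mk _ (MvPolynomial.X (⟨ℓ, hℓ⟩ : Nat.Primes)), fun x =>
          htr ℓ hℓ hℓS.2 hℓS.1 P hP σ hσ x⟩, by simp⟩
      · refine ⟨y, ⟨Ideal.Quotient.mk _ (MvPolynomial.X (⟨2, Nat.prime_two⟩ : Nat.Primes)),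
          fun x => hX2 x⟩, ?_⟩
        rw [hy, sub_add_cancel_left, neg_mem_iff]
        refine Ideal.mul_mem_right _ _ ?_
        rw [← map_ofNat (algebraMap O U.R) 2]
        exact Ideal.mem_map_of_mem _ ((residue_eq_zero_iff _).mp (by
          rw [map_ofNat]; exact CharTwo.two_eq_zero)))
    fun r => by
      obtain ⟨s, hs, hrs⟩ := TSide.adjoin_root_trace_sub_mem U hspan (S₀ ∪ hSfin.toFinset) r N
      exact ⟨s, hs, hpow hrs⟩
  have heq : ∀ (t : C0.HeckeImage O M₀) (r : U.R), (∀ x : M₀, t • x = r • x) → φ r = t :=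
    fun t r ht => hinj (LinearMap.ext fun x => (hφact r x).trans (ht x).symm)
  let ε : U.R ≃ₐ[O] C0.HeckeImage O M₀ := AlgEquiv.ofBijective φ hφ
  refine ⟨φ, hφ, ?_, RingEquiv.isLocalRing ε.toRingEquiv, ⟨b.mapCoeffs ε.toRingEquiv
    fun r x => hφact r x⟩, hu.map φ, ?_, fun r x => ?_, ?_⟩
  · obtain ⟨n, F, ψ, hψ, hker⟩ := hpres
    exact ⟨Module.Finite.equiv ε.toLinearEquiv, Module.Free.of_equiv ε.toLinearEquiv, n, F,
      φ.comp ψ, hφ.2.comp hψ, by
        rw [← hker]
        exact RingHom.ker_comp_of_injective (ψ : MvPowerSeries (Fin n) O →+* U.R)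
          (f := (φ : U.R →+* C0.HeckeImage O M₀)) hφ.1⟩
  · refine Eq.trans ?_ (congrArg (fun t => t * φ (uRoot U))
      (heq (Ideal.Quotient.mk _ (MvPolynomial.X (⟨2, Nat.prime_two⟩ : Nat.Primes))) y hX2))
    rw [← map_mul φ y, hyα, map_add, map_mul, map_ofNat]
  · rw [show φ r • x = r • x from hφact r x, hsmul]
  · intro ℓ hℓ hℓS hℓ0 P hP σ hσ
    exact heq _ _ (htr ℓ hℓ hℓS hℓ0 P hP σ hσ)

end Base

end Fermat.Agent.TwoAdic
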